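import Fermat.Agent.S14.Endgame.Main

/-!
# S14 interface `arithmeticCore` (statement FROZEN by helper15; body owned by helper15, theory Endgame)
-/

set_option autoImplicit false

namespace Fermat.Agent.S14

theorem arithmeticCore {p : ℕ} [Fact p.Prime] (h3 : 3 ≤ p) : ArithmeticCore p :=
  Endgame.arithmeticCore h3

end Fermat.Agent.S14
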