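import Fermat.Agent.S14.Defs
import Fermat.Agent.S14.Density.Main

/-!
# S14 interface `exists_prime_not_splitsCompletely` (statement FROZEN by helper15; body owned by helper18 (theory Density))

Split density: for a nontrivial Galois extension `M/N` of number fields there are degree-one
primes of `N`, of residue characteristic outside any given finite set, that do not split
completely in `M`.
The statement must not be changed without helper15's approval.  The owner replaces the `sorry`
by a proof (typically `exact <Theory>.main ...` after adding an import of the theory's files).
-/

set_option autoImplicit false

namespace Fermat.Agent.S14

open NumberField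
open scoped Pointwise

theorem exists_prime_not_splitsCompletely
    (N M : Type*) [Field N] [NumberField N] [Field M] [NumberField M] [Algebra N M] [IsGalois N M]
    (h : 1 < Module.finrank N M) (S : Finset ℕ) :
    ∃ P : Ideal (𝓞 N), P.IsPrime ∧ (Ideal.absNorm P).Prime ∧ Ideal.absNorm P ∉ S ∧
      ¬ SplitsCompletely N M P := by
  exact Density.main N M h S

end Fermat.Agent.S14
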