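import Fermat.Agent.S14.Defs
import Fermat.Agent.S14.Crossing.Reduce

/-!
# S14 interface `reciprocity` (statement FROZEN by helper15; body owned by helper21 (theory Crossing))

Artin reciprocity for an everywhere unramified cyclic extension `L/K` of degree `p` of
`K = ℚ(ζ_p)`: if `σ ≠ 1` and `σ ^ e q` is the Frobenius of `L/K` at the prime `q` (for every
nonzero prime `q`), then the "Artin symbol" of every principal ideal vanishes.
The statement must not be changed without helper15's approval.  The owner replaces the `sorry`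
by a proof (typically `exact <Theory>.main ...` after adding an import of the theory's files).
-/

set_option autoImplicit false

namespace Fermat.Agent.S14

open NumberField
open scoped Pointwise

theorem reciprocity {p : ℕ} [Fact p.Prime] (hp : p ≠ 2)
    (K L : Type) [Field K] [NumberField K] [Field L] [NumberField L] [Algebra K L]
    [IsCyclotomicExtension {p} ℚ K] [IsGalois K L]
    (hdeg : Module.finrank K L = p)
    (hunr : UnramifiedEverywhere K L)
    (hsplit : ∀ q : Ideal (𝓞 K), q.IsPrime → ((p : ℕ) : 𝓞 K) ∈ q → SplitsCompletely K L q)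
    (σ : L ≃ₐ[K] L) (hσ : σ ≠ 1) (e : Ideal (𝓞 K) → ZMod p)
    (hfrob : ∀ q : Ideal (𝓞 K), q.IsPrime → q ≠ ⊥ →
      ∀ Q : Ideal (𝓞 L), Q.IsPrime → Q.LiesOver q →
        ∀ x : 𝓞 L, (σ ^ (e q).val) • x - x ^ Nat.card (𝓞 K ⧸ q) ∈ Q)
    (y : 𝓞 K) (hy : y ≠ 0) :
    principalSum K e y = 0 :=
  Crossing.main hp K L hdeg hunr hsplit σ hσ e hfrob y hy

end Fermat.Agent.S14
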