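import Fermat.Agent.S14.Defs
import Fermat.Agent.S14.Jacobi.Main

/-!
# S14 interface `stickelberger` (statement FROZEN by helper15; body owned by helper7 (theory Jacobi))

Stickelberger for the Jacobi sum `J(χ,χ)`: for a degree-one prime `q ∤ p` of `K = ℚ(ζ_p)`,
the ideal `∏_{0 < a < p/2} σ_a⁻¹(q)` is principal, where `σ_a ζ = ζ^a`.
(`(s a)⁻¹ • q` is the image of `q` under `σ_a⁻¹`.)
The statement must not be changed without helper15's approval.  The body is the theorem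
`Fermat.Agent.S14.Jacobi.main` of `Fermat/Agent/S14/Jacobi/Main.lean`.
-/

set_option autoImplicit false

namespace Fermat.Agent.S14

open NumberField
open scoped Pointwise

theorem stickelberger {p : ℕ} [Fact p.Prime] (hp : p ≠ 2)
    (K : Type) [Field K] [NumberField K] [IsCyclotomicExtension {p} ℚ K]
    (ζ : K) (hζ : IsPrimitiveRoot ζ p)
    (s : ℕ → (K ≃ₐ[ℚ] K)) (hs : ∀ a : ℕ, 0 < a → a < p → s a ζ = ζ ^ a)
    (q : Ideal (𝓞 K)) (hq : q.IsPrime) (hqp : ((p : ℕ) : 𝓞 K) ∉ q)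
    (hdeg : (Ideal.absNorm q).Prime) :
    ∃ J : 𝓞 K, Ideal.span {J} =
      ∏ a ∈ (Finset.Ioo 0 p).filter (fun a => 2 * a < p), ((s a)⁻¹ • q : Ideal (𝓞 K)) :=
  Jacobi.main hp K ζ hζ s hs q hq hqp hdeg

end Fermat.Agent.S14
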