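import Fermat.Agent.S14.Defs
import Fermat.Prelude.Def_ExtCitation_AdmissibleExtension_v2
import Fermat.Agent.S14.Bridge.Main
/-!
# S14 interface `bridge` (statement FROZEN by helper15; body owned by helper17 (theory Bridge))

Reduction of the frozen S14 statement to the arithmetic core.
The statement must not be changed without helper15's approval.  The owner replaces the `sorry`
by a proof (typically `exact <Theory>.main ...` after adding an import of the theory's files).
-/

set_option autoImplicit false

namespace Fermat.Agent.S14

open NumberField
open scoped Pointwise

theorem bridge {p : ℕ} [Fact p.Prime] (h3 : 3 ≤ p) (hAC : ArithmeticCore p) :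
    ExtCitation.ExtVanishingCts p :=
  Bridge.bridge h3 hAC

end Fermat.Agent.S14
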