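import Fermat.Agent.S14.Defs
import Fermat.Agent.S14.FirstIneq.Main

/-!
# S14 interface `firstInequality` (statement FROZEN by helper15; body owned by helper12 (theory FirstIneq))

First inequality (norm index `≥ p`) in functional form, for a cyclic extension `N/F` of
degree `p`, `ζ_p ∈ F`, unramified outside the finite set `R` of primes not above `p`:
there is a nonzero `ZMod p`-valued function on primes outside `R` which kills all primes
outside `R` that split completely in `N` and all principal ideals `(y)` with `y` prime to `R`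
and a `p`-th power residue modulo every `w ∈ R`.
The statement must not be changed without helper15's approval.  The owner replaces the `sorry`
by a proof (typically `exact <Theory>.main ...` after adding an import of the theory's files).
-/

set_option autoImplicit false

namespace Fermat.Agent.S14

open NumberField
open scoped Pointwise

theorem firstInequality {p : ℕ} [Fact p.Prime] (hp : p ≠ 2)
    (F N : Type*) [Field F] [NumberField F] [Field N] [NumberField N] [Algebra F N] [IsGalois F N]
    (hζ : ∃ ζ : F, IsPrimitiveRoot ζ p) (hdeg : Module.finrank F N = p)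
    (R : Finset (Ideal (𝓞 F)))
    (hR : ∀ w ∈ R, w.IsPrime ∧ w ≠ ⊥ ∧ ((p : ℕ) : 𝓞 F) ∉ w)
    (hram : ∀ Q : Ideal (𝓞 N), Q.IsPrime → Q ≠ ⊥ → Q.under (𝓞 F) ∉ R → UnramifiedAt F N Q) :
    ∃ e : Ideal (𝓞 F) → ZMod p,
      (∃ q : Ideal (𝓞 F), q.IsPrime ∧ q ≠ ⊥ ∧ q ∉ R ∧ e q ≠ 0) ∧
      (∀ q : Ideal (𝓞 F), q.IsPrime → q ≠ ⊥ → q ∉ R → SplitsCompletely F N q → e q = 0) ∧
      (∀ y : 𝓞 F, y ≠ 0 → (∀ w ∈ R, y ∉ w ∧ ∃ c : 𝓞 F, y - c ^ p ∈ w) →
        principalSum F e y = 0) := by
  exact FirstIneq.main hp F N hζ hdeg R hR hram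

end Fermat.Agent.S14
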