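import Fermat.Agent.S14.Defs
import Fermat.Agent.S14.SecondIneq.Main

/-!
# S14 interface `secondInequality` (statement FROZEN by helper15; body owned by helper1 (theory SecondIneq))

Second inequality (norm index `≤ p`) in functional form, for an everywhere unramified cyclic
extension `M/F` of degree `p`, `ζ_p ∈ F`: any two `ZMod p`-valued functions on the primes outside
a finite set `R` which kill all principal ideals `(y)`, `y` prime to `R`, and all primes outside
`R` that split completely in `M`, are proportional.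
The statement must not be changed without helper15's approval.  The owner replaces the `sorry`
by a proof (typically `exact <Theory>.main ...` after adding an import of the theory's files).
-/

set_option autoImplicit false

namespace Fermat.Agent.S14

open NumberField
open scoped Pointwise

theorem secondInequality {p : ℕ} [Fact p.Prime] (hp : p ≠ 2)
    (F M : Type*) [Field F] [NumberField F] [Field M] [NumberField M] [Algebra F M] [IsGalois F M]
    (hζ : ∃ ζ : F, IsPrimitiveRoot ζ p) (hdeg : Module.finrank F M = p)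
    (hunr : UnramifiedEverywhere F M)
    (R : Finset (Ideal (𝓞 F))) (hR : ∀ w ∈ R, w.IsPrime ∧ w ≠ ⊥)
    (e e' : Ideal (𝓞 F) → ZMod p)
    (he : ∀ y : 𝓞 F, y ≠ 0 → (∀ w ∈ R, y ∉ w) → principalSum F e y = 0)
    (he' : ∀ y : 𝓞 F, y ≠ 0 → (∀ w ∈ R, y ∉ w) → principalSum F e' y = 0)
    (hs : ∀ q : Ideal (𝓞 F), q.IsPrime → q ≠ ⊥ → q ∉ R → SplitsCompletely F M q → e q = 0)
    (hs' : ∀ q : Ideal (𝓞 F), q.IsPrime → q ≠ ⊥ → q ∉ R → SplitsCompletely F M q → e' q = 0)
    (q₁ q₂ : Ideal (𝓞 F)) (h₁ : q₁.IsPrime ∧ q₁ ≠ ⊥ ∧ q₁ ∉ R) (h₂ : q₂.IsPrime ∧ q₂ ≠ ⊥ ∧ q₂ ∉ R) :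
    e q₁ * e' q₂ = e q₂ * e' q₁ :=
  SecondIneq.main hp F M hζ hdeg hunr R hR e e' he he' hs hs' q₁ q₂ h₁ h₂

end Fermat.Agent.S14
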